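/-
M59 / Sink B, leaf 4 [TOR-SURJ], cell [NORM-RED] (helper19).  Prefix `m59nr_`.

THE TWO NORM-REDUCTION IDENTITIES FOR CLASSES at level `(M, M q)`: for `z ∈ J₀(M q)[m]` killed by both
push-forwards to `J₀(M)` there are reductions `fb` of a representing function of `z` and `fbW` of a
representing function of `W_q z` (`twfr_Fbar`) with

  `fb · σ(fbW) = c · h ^ m`,      `σ(fb) · fbW = c' · h' ^ m`      in `FF_M(kA)`,

`σ = ca_aut kA M φ` the coefficientwise `q`-Frobenius.  These are literally the two hypotheses of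
main's `s35b_abel_res` (S35/AbelInst.lean).  NO inertia-invariance and NO `ν = 0` hypothesis: over `ℚ̄`
every class has a representative which is a unit at both Gauss valuations (helper10's
`m59nf_normalise`), the norms are constants times `m`-th powers (`s35k_push_kummer`), Gauss-normalised
by helper10's `m59nf_norm_rel`, and reduced by helper4's `m59fp_normRed`.
-/
import Mathlib
import Fermat.Agent.M59.SinkB.FinPic.NormRed
import Fermat.Agent.M59.Strict.NFCore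
import Fermat.Agent.M59.Strict.NFNrm
import Fermat.Agent.TW.Easy.Res.Main
import Fermat.Agent.TW.Easy.WTwo
import Fermat.Agent.S35.KummerGeom
import Fermat.Agent.JT3.ES.CoeffAut

set_option autoImplicit false
set_option linter.unusedSectionVars false
set_option linter.unusedVariables false
set_option linter.style.haveILetI false
set_option maxHeartbeats 1000000
set_option synthInstance.maxHeartbeats 400000

noncomputable section

namespace Fermat.Agent.M59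

open ModularCurve AlgebraicCurve IntermediateField IsLocalRing
open Fermat.Agent.JT3 Fermat.Agent.S24 Fermat.Agent.SS Fermat.Agent.S35 Fermat.Agent.S44
  Fermat.Agent.TW

local notation "Qb" => AlgebraicClosure ℚ

section Red

variable (A : ValuationSubring Qb) {q : ℕ} (hq : q.Prime) (hA : A.LiesOverPrime q)
  (M : ℕ) [NeZero M] [NeZero q] [NeZero (M * q)] (hqM : ¬ q ∣ M)

include hq hA hqM in
/-- the reduction of a Gauss-bounded element of `F̄_M` lies in `F_M(kA)`. -/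
theorem m59nr_res_mem_base (g : Fbar M) (hg : gq_IsBdd ↥A Qb (g : LaurentSeries Qb)) :
    gq_res ↥A Qb ⟨(g : LaurentSeries Qb), hg⟩ ∈ lg_F (s44e_kA A) M := by
  haveI : Fact q.Prime := ⟨hq⟩
  have hmem : (g : LaurentSeries Qb) ∈ modularFunctionFieldBar (M * q) := by
    have h1 := (heckeAlphaBar Qb M q g).2
    rwa [coe_heckeAlphaBar] at h1
  exact s44rd_res_mem A hA M hqM hmem hg

end Red

section Main

variable (A : ValuationSubring Qb) {q : ℕ} (hq : q.Prime) (hA : A.LiesOverPrime q)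
  (M : ℕ) [NeZero M] [NeZero q] [NeZero (M * q)] (hqM : ¬ q ∣ M)

include hA in
/-- **[NORM-RED] for one representative**: `F` a unit at both Gauss valuations of `F̄_{M q}` whose
norm along `α` is a constant times an `m`-th power: `red F · Fr (red (W̄ F)) = c̄ · ḡ ^ m` with
`c̄ ≠ 0`, `ḡ ≠ 0` in `F_M(kA)`. -/
theorem m59nr_rel_alpha (τ : ResidueField ↥A →+* ResidueField ↥A) (hτ : ∀ x, τ x = x ^ q)
    {m : ℕ} {F : Fbar (M * q)} (hF0 : F ≠ 0)
    (hf1 : F ∈ s44pg_W A hA hq.ne_zero (M * q)) (hf2 : F⁻¹ ∈ s44pg_W A hA hq.ne_zero (M * q))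
    (hw1 : ssm_al_Wbar M q hq hqM F ∈ s44pg_W A hA hq.ne_zero (M * q))
    (hw2 : (ssm_al_Wbar M q hq hqM F)⁻¹ ∈ s44pg_W A hA hq.ne_zero (M * q))
    {c : Qb} {g : Fbar M} (hg : g ≠ 0)
    (hN : s35pe_normAlong (heckeAlphaBar Qb M q) F = algebraMap Qb (Fbar M) c * g ^ m) :
    ∃ (cb : s44e_kA A) (gb : s44e_FF A M), cb ≠ 0 ∧ gb ≠ 0 ∧
      gq_res ↥A Qb ⟨(F : LaurentSeries Qb), hf1⟩ *
        coeffMap τ (gq_res ↥A Qb
          ⟨((ssm_al_Wbar M q hq hqM F : Fbar (M * q)) : LaurentSeries Qb), hw1⟩) =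
        ((cb • gb ^ m : s44e_FF A M) : LaurentSeries (s44e_kA A)) := by
  have hq0 : q ≠ 0 := hq.ne_zero
  obtain ⟨c₁, g₁, hc₁, hg₁, hc₁A, hc₁A', hg₁W, hg₁W', hrel⟩ :=
    m59nf_norm_rel M q hq hqM A hA τ hτ hF0 hf1 hf2 hw1 hw2 hg hN
  obtain ⟨⟨hNb, eN⟩, -⟩ := m59fp_normRed M q hq hqM A hA τ hτ F hf1 hw1
  have hgb : gq_IsBdd ↥A Qb (g₁ : LaurentSeries Qb) := hg₁W
  have hgbi : gq_IsBdd ↥A Qb ((g₁ : LaurentSeries Qb))⁻¹ := by
    have : gq_IsBdd ↥A Qb ((g₁⁻¹ : Fbar M) : LaurentSeries Qb) := hg₁W'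
    rwa [IntermediateField.coe_inv] at this
  have hg₁0' : (g₁ : LaurentSeries Qb) ≠ 0 := fun h => hg₁ (Subtype.ext h)
  have hgne := gq_res_ne_zero_of_inv (⟨(g₁ : LaurentSeries Qb), hgb⟩ : ↥(gq_bddSubring ↥A Qb))
    hgbi hg₁0'
  -- the constant
  have hcb : gq_IsBdd ↥A Qb ((algebraMap Qb (Fbar M) c₁ : Fbar M) : LaurentSeries Qb) :=
    (s44pg_const A hA hq0 M c₁).2 hc₁A
  have hcres : gq_res ↥A Qb ⟨_, hcb⟩ =
      algebraMap (ResidueField ↥A) (LaurentSeries (ResidueField ↥A))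
        (residue ↥A ⟨c₁, hc₁A⟩) := s44rd_res_const A ⟨c₁, hc₁A⟩ hcb
  have hcb0 : residue ↥A ⟨c₁, hc₁A⟩ ≠ 0 := by
    rw [Ne, residue_eq_zero_iff, mem_maximalIdeal, mem_nonunits_iff]
    intro hnu
    have hu : IsUnit (⟨c₁, hc₁A⟩ : ↥A) :=
      isUnit_iff_exists_inv.2 ⟨⟨c₁⁻¹, hc₁A'⟩, Subtype.ext (mul_inv_cancel₀ hc₁)⟩
    exact hnu hu
  -- the product in the bounded subring
  have hprod : (⟨((s35pe_normAlong (heckeAlphaBar Qb M q) F : Fbar M) : LaurentSeries Qb), hNb⟩ :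
      ↥(gq_bddSubring ↥A Qb)) =
      ⟨_, hcb⟩ * ⟨(g₁ : LaurentSeries Qb), hgb⟩ ^ m := by
    apply Subtype.ext
    show ((s35pe_normAlong (heckeAlphaBar Qb M q) F : Fbar M) : LaurentSeries Qb) =
      ((algebraMap Qb (Fbar M) c₁ : Fbar M) : LaurentSeries Qb) * (g₁ : LaurentSeries Qb) ^ m
    rw [hrel]
    rfl
  refine ⟨residue ↥A ⟨c₁, hc₁A⟩,
    ⟨gq_res ↥A Qb ⟨(g₁ : LaurentSeries Qb), hgb⟩, m59nr_res_mem_base A hq hA M hqM g₁ hgb⟩,
    hcb0, fun h0 => hgne (congrArg Subtype.val h0), ?_⟩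
  rw [← eN, hprod, map_mul, map_pow, hcres, Algebra.smul_def]
  rfl

include hA in
/-- **[NORM-RED] FOR CLASSES** (function form = the two hypotheses of `s35b_abel_res`): a class of
`J₀(M q)[m]` killed by both push-forwards to `J₀(M)` has reductions `fb` (of a representing function
of `z`) and `fbW` (of a representing function of `W_q z`) with
`fb · σ fbW = c · h ^ m` and `σ fb · fbW = c' · h' ^ m`, `σ` the coefficientwise `q`-Frobenius. -/
theorem m59nr_fbar_rel (φ : s44e_kA A ≃+* s44e_kA A) (hφ : ∀ c, φ c = c ^ q) {m : ℕ}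
    (hm : 0 < m) {z : JZero (M * q)} (hz : m • z = 0)
    (h1 : s35p_P1J M q z = 0) (h2 : s35p_P2J M q z = 0) :
    ∃ (fb fbW h h' : s44e_FF A M) (c c' : s44e_kA A),
      twfr_Fbar A M q m z fb ∧ twfr_Fbar A M q m (s44w_WJ M q hq hqM z) fbW ∧
      h ≠ 0 ∧ h' ≠ 0 ∧ c ≠ 0 ∧ c' ≠ 0 ∧
      fb * (ca_aut (s44e_kA A) M φ • fbW) = c • h ^ m ∧
      (ca_aut (s44e_kA A) M φ • fb) * fbW = c' • h' ^ m := by
  haveI : Fact q.Prime := ⟨hq⟩
  have hq0 : q ≠ 0 := hq.ne_zero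
  have hm0 : m ≠ 0 := hm.ne'
  -- a representative which is a unit at both Gauss valuations
  obtain ⟨f₀, hrep₀⟩ := s44b_rep_exists (M * q) hz
  obtain ⟨H, hH0, hf1, hf2, hw1, hw2⟩ := m59nf_normalise M q hq hqM A hA hm0 hrep₀.1
  have hrep : s44f_Rep (M * q) m z (f₀ * H ^ m) := by
    have := (s44b_rep_pth (M * q) (p := m) (z := z) (f := f₀) (c := (1 : Qb)) (h := H)
      one_ne_zero hH0).2 hrep₀
    rwa [map_one, one_mul] at this
  generalize f₀ * H ^ m = F at hf1 hf2 hw1 hw2 hrep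
  have hF0 : F ≠ 0 := hrep.1
  have hrepW : s44f_Rep (M * q) m (s44w_WJ M q hq hqM z) (ssm_al_Wbar M q hq hqM F) :=
    twf_w_rep_WJ M q hq hqM m hrep
  -- the two norm relations
  obtain ⟨c, g, hg, hN⟩ : ∃ (c : Qb) (g : Fbar M), g ≠ 0 ∧
      s35pe_normAlong (heckeAlphaBar Qb M q) F = algebraMap Qb (Fbar M) c * g ^ m := by
    obtain ⟨-, D, hD, hfv⟩ := hrep
    rw [← hD] at h1
    exact s35k_push_kummer (rt_isSepGen_jBar M) _ _ _ _ D hF0 hfv h1
  obtain ⟨c', g', hg', hNβ⟩ : ∃ (c : Qb) (g : Fbar M), g ≠ 0 ∧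
      s35pe_normAlong (heckeBetaBar Qb M q) F = algebraMap Qb (Fbar M) c * g ^ m := by
    obtain ⟨-, D, hD, hfv⟩ := hrep
    rw [← hD] at h2
    exact s35k_push_kummer (rt_isSepGen_jBar M) _ _ _ _ D hF0 hfv h2
  have hN' : s35pe_normAlong (heckeAlphaBar Qb M q) (ssm_al_Wbar M q hq hqM F) =
      algebraMap Qb (Fbar M) c' * g' ^ m := by
    rw [s44dqn_norm_Wbar]
    exact hNβ
  have hWW : ssm_al_Wbar M q hq hqM (ssm_al_Wbar M q hq hqM F) = F :=
    s44dqn_Wbar_Wbar M q hq hqM F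
  have hWF0 : ssm_al_Wbar M q hq hqM F ≠ 0 := by
    rw [Ne, map_eq_zero]; exact hF0
  have hτ : ∀ x, (φ : s44e_kA A →+* s44e_kA A) x = x ^ q := hφ
  have hww1 : ssm_al_Wbar M q hq hqM (ssm_al_Wbar M q hq hqM F) ∈
      s44pg_W A hA hq.ne_zero (M * q) := by rw [hWW]; exact hf1
  have hww2 : (ssm_al_Wbar M q hq hqM (ssm_al_Wbar M q hq hqM F))⁻¹ ∈
      s44pg_W A hA hq.ne_zero (M * q) := by rw [hWW]; exact hf2
  obtain ⟨cb, gb, hcb, hgb, e1⟩ := m59nr_rel_alpha A hq hA M hqM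
    (φ : s44e_kA A →+* s44e_kA A) hτ hF0 hf1 hf2 hw1 hw2 hg hN
  obtain ⟨cb', gb', hcb', hgb', e2⟩ := m59nr_rel_alpha A hq hA M hqM
    (φ : s44e_kA A →+* s44e_kA A) hτ hWF0 hw1 hw2 hww1 hww2 hg' hN'
  rw [m59nf_res_congr (congrArg (fun z : Fbar (M * q) => (z : LaurentSeries Qb)) hWW) hww1 hf1]
    at e2
  -- the two reductions
  obtain ⟨fb, hfb0, hb, efb⟩ :=
    s44e_exists_redOf_of_unit A hq hA M (s44rd_hmem A hA M hqM) hf1 hf2 hF0
  obtain ⟨fbW, hfbW0, hbW, efbW⟩ :=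
    s44e_exists_redOf_of_unit A hq hA M (s44rd_hmem A hA M hqM) hw1 hw2 hWF0
  refine ⟨fb, fbW, gb, gb', cb, cb', ⟨hfb0, F, hrep, hb, efb⟩, ⟨hfbW0, _, hrepW, hbW, efbW⟩,
    hgb, hgb', hcb, hcb', ?_, ?_⟩
  · apply Subtype.ext
    rw [← e1]
    show (fb : LaurentSeries (s44e_kA A)) *
      ((ca_aut (s44e_kA A) M φ • fbW : ↥(s44e_FF A M)) : LaurentSeries (s44e_kA A)) = _
    rw [ca_coe_aut_smul, ← efb, ← efbW]
  · apply Subtype.ext
    rw [← e2]
    show ((ca_aut (s44e_kA A) M φ • fb : ↥(s44e_FF A M)) : LaurentSeries (s44e_kA A)) *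
      (fbW : LaurentSeries (s44e_kA A)) = _
    rw [ca_coe_aut_smul, ← efb, ← efbW, mul_comm]

end Main

end Fermat.Agent.M59
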