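/-
M59 / Sink B, leaf 4 [TOR-SURJ], cell [NORM-RED] (helper20), part 1.  Prefix `m59nr_`.

THE NORM ALONG THE DEGENERACY MAP `α` OF AN ARBITRARY ELEMENT, AS A PRODUCT OF SERIES.

* `m59nr_norm_prod` : generic twin of helper24's `dsh_nl_norm` (DS/Hecke/NormProdGen) with the
  argument `z : F'` ARBITRARY (there: `z = β y`):
    `(N_α z)(X^p) = z(X^p) · ∏_{b<p} (w z)(ζ^b X)`;
* `m59nr_norm_prod_bar` : the instance over `ℚ̄` at the pair `(F̄_M, F̄_{M q})`, `w = W̄` (the
  Atkin–Lehner endomorphism `ssm_al_Wbar`), `ζ` a primitive `q`-th root of unity of `ℚ̄`: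
    `(N_α z)(X^q) = z(X^q) · ∏_{b<q} (W̄ z)(ζ^b X)`.
-/
import Mathlib
import Fermat.Agent.DS.Hecke.NormProdGen
import Fermat.Agent.S44.DQbar.NormPow
import Fermat.Agent.S35.DescU.NormBC

set_option autoImplicit false
set_option linter.unusedSectionVars false
set_option linter.unusedVariables false
set_option linter.style.haveILetI false
set_option synthInstance.maxHeartbeats 400000
set_option maxHeartbeats 1000000

noncomputable section

namespace Fermat.Agent.M59

open ModularCurve AlgebraicCurve IntermediateField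
open Fermat.Agent.JT3 Fermat.Agent.SS Fermat.Agent.S28 Fermat.Agent.S35 Fermat.Agent.S44
  Fermat.Agent.DS Fermat.Agent.S24

local notation "Qb" => AlgebraicClosure ℚ

section generic

variable {L Ω F F' : Type*} [Field L] [Field Ω] [Field F] [Field F'] [Algebra L F] [Algebra L F']
  (e : F →+* LaurentSeries L) (e' : F' →+* LaurentSeries L) (ι : L →+* Ω) (p : ℕ) [NeZero p]

/-- **the norm of an arbitrary `z` along `α`, as a product of series.** -/
theorem m59nr_norm_prod [CharZero L] (hp : p.Prime) (α β : F →ₐ[L] F') (δ : F → F)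
    (hα : ∀ x : F, e' (α x) = e x) (hβ : ∀ y : F, e' (β y) = qExpand L p (e y))
    (hdeg : finrankAlong L α = p + 1)
    (w : F' →+* LaurentSeries Ω)
    (hwα : ∀ x : F, w (α x) = coeffMap ι (qExpand L p (e x)))
    (hwβ : ∀ y : F, w (β y) = coeffMap ι (e (δ y)))
    (s : F) (hs : (e (δ s)).coeff (-1) ≠ 0)
    (ζ : Lˣ) (hζ : IsPrimitiveRoot ζ p) (z : F') :
    coeffMap ι (qExpand L p (e (letI := algebraAlong α; Algebra.norm F z))) =
      coeffMap ι (qExpand L p (e' z)) *
        ∏ b ∈ Finset.range p, fs_twist (Units.map (ι : L →* Ω) ζ ^ b) (w z) := by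
  classical
  letI : Algebra F F' := algebraAlong α
  have hfr : Module.finrank F F' = p + 1 := hdeg
  haveI : FiniteDimensional F F' := Module.finite_of_finrank_pos (by rw [hfr]; omega)
  haveI : CharZero F := charZero_of_injective_algebraMap (algebraMap L F).injective
  haveI : Algebra.IsSeparable F F' := Algebra.IsAlgebraic.isSeparable_of_perfectField
  have hιinj : Function.Injective ι := ι.injective
  set ζC : Ωˣ := Units.map (ι : L →* Ω) ζ with hζC
  have hζCprim : IsPrimitiveRoot ζC p := hζ.map_of_injective (Units.map_injective hιinj)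
  have hp2 : 2 ≤ p := hp.two_le
  have hsΩ : ι ((e (δ s)).coeff (-1)) ≠ 0 := (map_ne_zero ι).mpr hs
  have hσ : ∀ i (x : F), dsh_nl_σ e' ι p w ζ i (algebraMap F F' x) = dsh_nl_i₀ e ι p x := by
    intro i x
    have hx : algebraMap F F' x = α x := rfl
    rw [hx]
    cases i with
    | none => rw [dsh_nl_σ_none, dsh_nl_i₀_apply, hα]
    | some b =>
      rw [dsh_nl_σ_some, hwα, dsh_nl_i₀_apply, fs_coeffMap_qExpand]
      apply dsh_nl_twist_qExpand
      rw [← pow_mul, mul_comm, pow_mul, hζCprim.pow_eq_one, one_pow]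
  have hinj : Function.Injective (dsh_nl_σ e' ι p w ζ) := by
    intro i j hij
    have hc : (dsh_nl_σ e' ι p w ζ i (β s)).coeff (-1) =
        (dsh_nl_σ e' ι p w ζ j (β s)).coeff (-1) := by rw [hij]
    cases i with
    | none =>
      cases j with
      | none => rfl
      | some b =>
        rw [dsh_nl_coeff_none e' ι p hp2, dsh_nl_coeff_some e e' ι p β δ w hwβ] at hc
        exact absurd hc.symm (mul_ne_zero (Units.ne_zero _) hsΩ)
    | some a =>
      cases j with
      | none =>
        rw [dsh_nl_coeff_none e' ι p hp2, dsh_nl_coeff_some e e' ι p β δ w hwβ] at hc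
        exact absurd hc (mul_ne_zero (Units.ne_zero _) hsΩ)
      | some b =>
        rw [dsh_nl_coeff_some e e' ι p β δ w hwβ, dsh_nl_coeff_some e e' ι p β δ w hwβ] at hc
        have hc' := mul_right_cancel₀ hsΩ hc
        have h1 : ζC ^ (a : ℕ) = ζC ^ (b : ℕ) := by
          have := Units.ext hc'
          rwa [zpow_neg_one, zpow_neg_one, inv_inj] at this
        have h2 : (a : ℕ) = (b : ℕ) := hζCprim.pow_inj a.2 b.2 h1
        rw [Fin.ext h2]
  have hcard : Fintype.card (Option (Fin p)) = Module.finrank F F' := by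
    rw [hfr, Fintype.card_option, Fintype.card_fin]
  have key := nlp_norm_eq_prod (dsh_nl_i₀ e ι p) (dsh_nl_σ e' ι p w ζ) hσ hinj hcard z
  rw [dsh_nl_i₀_apply] at key
  rw [key, Fintype.prod_option, dsh_nl_σ_none]
  congr 1
  rw [← Fin.prod_univ_eq_prod_range (fun b => fs_twist (ζC ^ b) (w z)) p]
  rfl

end generic

section bar

variable (M q : ℕ) [NeZero M] [NeZero q] (hq : q.Prime) (hqM : ¬ q ∣ M)

include hq hqM in
/-- **the product formula over `ℚ̄` at `(F̄_M, F̄_{M q})`**:
`(N_α z)(X^q) = z(X^q) · ∏_{b<q} (W̄ z)(ζ^b X)`. -/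
theorem m59nr_norm_prod_bar (ζ : Qbˣ) (hζ : IsPrimitiveRoot ζ q) (z : Fbar (M * q)) :
    qExpand Qb q ((s35pe_normAlong (heckeAlphaBar Qb M q) z : Fbar M) : LaurentSeries Qb) =
      qExpand Qb q (z : LaurentSeries Qb) *
        ∏ b ∈ Finset.range q,
          fs_twist (ζ ^ b) ((ssm_al_Wbar M q hq hqM z : Fbar (M * q)) : LaurentSeries Qb) := by
  set e : Fbar M →+* LaurentSeries Qb :=
    ((modularFunctionFieldBar M).val : Fbar M →+* LaurentSeries Qb) with he
  set e' : Fbar (M * q) →+* LaurentSeries Qb :=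
    ((modularFunctionFieldBar (M * q)).val : Fbar (M * q) →+* LaurentSeries Qb) with he'
  set w : Fbar (M * q) →+* LaurentSeries Qb :=
    e'.comp ((ssm_al_Wbar M q hq hqM : Fbar (M * q) →ₐ[Qb] Fbar (M * q)) :
      Fbar (M * q) →+* Fbar (M * q)) with hw
  have hα : ∀ x : Fbar M, e' (heckeAlphaBar Qb M q x) = e x := fun x => coe_heckeAlphaBar M q x
  have hβ : ∀ x : Fbar M, e' (heckeBetaBar Qb M q x) = qExpand Qb q (e x) :=
    fun x => coe_heckeBetaBar M q x
  have hwα : ∀ x : Fbar M, w (heckeAlphaBar Qb M q x) =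
      coeffMap (RingHom.id Qb) (qExpand Qb q (e x)) := by
    intro x
    rw [coeffMap_id]
    show e' (ssm_al_Wbar M q hq hqM (heckeAlphaBar Qb M q x)) = _
    rw [ssm_al_Wbar_alpha]
    exact hβ x
  have hwβ : ∀ x : Fbar M, w (heckeBetaBar Qb M q x) = coeffMap (RingHom.id Qb) (e (id x)) := by
    intro x
    rw [coeffMap_id]
    show e' (ssm_al_Wbar M q hq hqM (heckeBetaBar Qb M q x)) = _
    rw [ssm_al_Wbar_beta]
    exact hα x
  have hj : jqModC Qb ∈ modularFunctionFieldBar M := by
    show jqModC Qb ∈ laurentBaseChange Qb (modularFunctionFieldFull M)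
    rw [← lg_F_eq_laurentBaseChange]
    exact jqModC_mem_full Qb M
  have hs : (e (id (⟨jqModC Qb, hj⟩ : Fbar M))).coeff (-1) ≠ 0 := by
    show (jqModC Qb).coeff (-1) ≠ 0
    rw [coeff_jqModC_neg_one]
    exact one_ne_zero
  have key := m59nr_norm_prod (F := Fbar M) (F' := Fbar (M * q)) e e' (RingHom.id Qb) q hq
    (heckeAlphaBar Qb M q) (heckeBetaBar Qb M q) id hα hβ
    (s35d_finrankAlong_alpha Qb M q hq hqM) w hwα hwβ ⟨jqModC Qb, hj⟩ hs ζ hζ z
  rw [coeffMap_id, coeffMap_id] at key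
  have hu : Units.map ((RingHom.id Qb : Qb →+* Qb) : Qb →* Qb) ζ = ζ := Units.ext rfl
  rw [hu] at key
  exact key

end bar

end Fermat.Agent.M59
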