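/-
M59 / Sink B, leaf 4 [TOR-SURJ], cell [NORM-RED] (helper20), part 2.  Prefix `m59nr_`.

THE REDUCTION OF THE NORM ALONG `α` WITH TWO INDEPENDENT NORMALISATIONS, OVER `ℚ̄`.

`A` a valuation subring of `ℚ̄` over `q`, `q ∤ M`.  For `z ∈ F̄_{M q}` a Gauss unit with reduction `x₁`
and `c₂ ∈ ℚ̄ˣ` such that `c₂ · W̄ z` is a Gauss unit with reduction `x₂`:

  **`m59nr_gen`** : `c₂ ^ q · N_α z` is Gauss-bounded with reduction `x₁ · Fr(x₂)`
  (`Fr` = the coefficientwise `q`-Frobenius of `kA((X))`).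

No relation between the two normalisations is needed (hence no component-group input): the proof is
the product formula `m59nr_norm_prod_bar` and helper18's Gauss-unit calculus (Eis/Gauss.lean);
`ζ_q ≡ 1` in the residue field.
-/
import Mathlib
import Fermat.Agent.M59.SinkB.NormRed.Prod
import Fermat.Agent.M59.SinkB.Eis.Gauss
import Fermat.Agent.DS.Hecke.NormRed
import Fermat.Agent.S44.Res.DictE2
import Fermat.Agent.JT3.ES.CoeffAut

set_option autoImplicit false
set_option linter.unusedSectionVars false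
set_option linter.unusedVariables false
set_option linter.style.haveILetI false
set_option synthInstance.maxHeartbeats 400000
set_option maxHeartbeats 1000000

noncomputable section

namespace Fermat.Agent.M59

open ModularCurve AlgebraicCurve IntermediateField IsLocalRing
open Fermat.Agent.JT3 Fermat.Agent.SS Fermat.Agent.S28 Fermat.Agent.S35 Fermat.Agent.S44
  Fermat.Agent.DS Fermat.Agent.S24

local notation "Qb" => AlgebraicClosure ℚ

/-! ### small lemmas on the residue map -/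

section Res

variable {O : Type*} [CommRing O] [IsDomain O] [IsLocalRing O]
variable {K : Type*} [Field K] [Algebra O K] [IsFractionRing O K]

theorem m59nr_res_congr {a b : LaurentSeries K} (h : a = b) (ha : gq_IsBdd O K a)
    (hb : gq_IsBdd O K b) :
    gq_res O K ⟨a, ha⟩ = gq_res O K ⟨b, hb⟩ := by
  subst h
  rfl

/-- the residue map commutes with the twists `X ↦ u X`, `u ∈ Oˣ`. -/
theorem m59nr_res_twist (u : Oˣ) (z : ↥(gq_bddSubring O K)) :
    gq_res O K ⟨fs_twist (Units.map (algebraMap O K : O →* K) u) (z : LaurentSeries K),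
        m59ei_isBdd_twist u z.2⟩ =
      fs_twist (Units.map (residue O : O →* ResidueField O) u) (gq_res O K z) := by
  obtain ⟨z1, z2, h2, hz⟩ := z.2
  have h2' : coeffMap (residue O) (fs_twist u z2) ≠ 0 := by
    rw [fs_coeffMap_twist]
    intro h0
    exact h2 (fs_twist_injective _ (by rw [h0, map_zero]))
  rw [gq_res_eq z h2 hz, gq_res_eq _ (z1 := fs_twist u z1) (z2 := fs_twist u z2) h2'
    (by
      show fs_twist _ (z : LaurentSeries K) * _ = _
      rw [fs_coeffMap_twist, fs_coeffMap_twist, ← map_mul, hz]),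
    fs_coeffMap_twist, fs_coeffMap_twist, map_div₀]

/-- a constant of `O` is bounded, with the obvious residue. -/
theorem m59nr_isBdd_const (c : O) :
    gq_IsBdd O K (algebraMap K (LaurentSeries K) (algebraMap O K c)) := by
  rw [← gq_coeffMap_algebraMap]
  exact gq_isBdd_iota _

theorem m59nr_res_const (c : O) :
    gq_res O K ⟨algebraMap K (LaurentSeries K) (algebraMap O K c), m59nr_isBdd_const c⟩ =
      algebraMap (ResidueField O) (LaurentSeries (ResidueField O)) (residue O c) := by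
  have e : algebraMap K (LaurentSeries K) (algebraMap O K c) =
      coeffMap (algebraMap O K) (algebraMap O (LaurentSeries O) c) :=
    (gq_coeffMap_algebraMap c).symm
  rw [m59nr_res_congr e _ (gq_isBdd_iota _), gq_res_iota, gq_algebraMap_eq_single,
    coeffMap_single, gq_algebraMap_eq_single]

end Res

/-- in characteristic `q`, a `q`-th root of unity is `1`. -/
theorem m59nr_root_eq_one {k : Type*} [Field k] (q : ℕ) [hq : Fact q.Prime] [CharP k q] {x : k}
    (hx : x ^ q = 1) : x = 1 := by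
  have h : (x - 1) ^ q = 0 := by
    rw [sub_pow_char, hx, one_pow, sub_self]
  exact sub_eq_zero.mp (pow_eq_zero_iff hq.out.ne_zero |>.mp h)

/-! ### the general norm reduction -/

section Gen

variable (A : ValuationSubring Qb) {q : ℕ} [hq : Fact q.Prime] (hA : A.LiesOverPrime q)
  (M : ℕ) [NeZero M] [NeZero q] (hqM : ¬ q ∣ M)

local notation "kA" => IsLocalRing.ResidueField A

include hA in
/-- **[NORM-RED], general form**: the reduction of `c₂ ^ q · N_α z` is `red z · Fr (red (c₂ · W̄ z))`,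
for `z` and `c₂ · W̄ z` Gauss units. -/
theorem m59nr_gen (τ : kA →+* kA) (hτ : ∀ x, τ x = x ^ q)
    (z : Fbar (M * q)) (hz0 : z ≠ 0) (c₂ : Qb) (hc₂ : c₂ ≠ 0)
    (h1 : gq_IsBdd ↥A Qb (z : LaurentSeries Qb))
    (h1i : gq_IsBdd ↥A Qb ((z : LaurentSeries Qb))⁻¹)
    (h2 : gq_IsBdd ↥A Qb (((algebraMap Qb (Fbar (M * q)) c₂ *
      ssm_al_Wbar M q hq.out hqM z : Fbar (M * q)) : LaurentSeries Qb)))
    (h2i : gq_IsBdd ↥A Qb (((algebraMap Qb (Fbar (M * q)) c₂ *
      ssm_al_Wbar M q hq.out hqM z : Fbar (M * q)) : LaurentSeries Qb))⁻¹) :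
    ∃ hN : gq_IsBdd ↥A Qb (((algebraMap Qb (Fbar M) (c₂ ^ q) *
        s35pe_normAlong (heckeAlphaBar Qb M q) z : Fbar M) : LaurentSeries Qb)),
      gq_IsBdd ↥A Qb (((algebraMap Qb (Fbar M) (c₂ ^ q) *
        s35pe_normAlong (heckeAlphaBar Qb M q) z : Fbar M) : LaurentSeries Qb))⁻¹ ∧
      gq_res ↥A Qb ⟨_, hN⟩ = gq_res ↥A Qb ⟨_, h1⟩ * coeffMap τ (gq_res ↥A Qb ⟨_, h2⟩) := by
  classical
  haveI : CharP kA q := jcr_charP A hA
  haveI : NeZero ((q : ℕ) : Qb) := ⟨by exact_mod_cast hq.out.ne_zero⟩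
  obtain ⟨ζ0, hζ0⟩ := HasEnoughRootsOfUnity.exists_primitiveRoot Qb q
  have hζ0u : IsUnit ζ0 := hζ0.isUnit hq.out.ne_zero
  obtain ⟨ζ, rfl⟩ := hζ0u
  have hζ : IsPrimitiveRoot ζ q := IsPrimitiveRoot.coe_units_iff.mp hζ0
  have hζpow : ζ ^ q = 1 := hζ.pow_eq_one
  set ζA : (↥A)ˣ := dsh_nl_unit A (NeZero.ne q) ζ hζpow with hζA
  have hζAmap : Units.map (A.subtype : ↥A →* Qb) ζA = ζ := dsh_nl_map_unit A _ ζ hζpow
  have hζApow : ζA ^ q = 1 := dsh_nl_unit_pow A _ ζ hζpow
  -- names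
  set Z : LaurentSeries Qb := (z : LaurentSeries Qb) with hZ
  set Wz : LaurentSeries Qb := ((ssm_al_Wbar M q hq.out hqM z : Fbar (M * q)) : LaurentSeries Qb)
    with hWz
  set Nz : LaurentSeries Qb :=
    ((s35pe_normAlong (heckeAlphaBar Qb M q) z : Fbar M) : LaurentSeries Qb) with hNz
  set C : LaurentSeries Qb := HahnSeries.C c₂ with hC
  have eG : (((algebraMap Qb (Fbar (M * q)) c₂ * ssm_al_Wbar M q hq.out hqM z : Fbar (M * q)) :
      LaurentSeries Qb)) = C * Wz := by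
    rw [hC, HahnSeries.C_apply, ← gq_algebraMap_eq_single]
    rfl
  have eY : (((algebraMap Qb (Fbar M) (c₂ ^ q) * s35pe_normAlong (heckeAlphaBar Qb M q) z :
      Fbar M) : LaurentSeries Qb)) = C ^ q * Nz := by
    rw [hC, ← map_pow, HahnSeries.C_apply, ← gq_algebraMap_eq_single]
    rfl
  have h2o := h2
  rw [eG] at h2 h2i
  -- the product formula, with the constants
  have hprod := m59nr_norm_prod_bar M q hq.out hqM ζ hζ z
  have hprod' : qExpand Qb q (C ^ q * Nz) =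
      qExpand Qb q Z * ∏ b ∈ Finset.range q, fs_twist (ζ ^ b) (C * Wz) := by
    rw [map_mul, map_pow, hC, qExpand_C, hprod]
    simp only [map_mul, fs_twist_C]
    rw [Finset.prod_mul_distrib, Finset.prod_const, Finset.card_range]
    exact mul_left_comm _ _ _
  -- the factors are bounded
  have hb0 : gq_IsBdd ↥A Qb (qExpand Qb q Z) := m59ei_isBdd_qExpand q h1
  have hζb : ∀ b : ℕ, ζ ^ b = Units.map (algebraMap ↥A Qb : ↥A →* Qb) (ζA ^ b) := by
    intro b
    rw [map_pow]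
    congr 1
  have hbt : ∀ b : ℕ, gq_IsBdd ↥A Qb (fs_twist (ζ ^ b) (C * Wz)) := by
    intro b
    rw [hζb b]
    exact m59ei_isBdd_twist (ζA ^ b) h2
  have hbti : ∀ b : ℕ, gq_IsBdd ↥A Qb (fs_twist (ζ ^ b) (C * Wz))⁻¹ := by
    intro b
    rw [hζb b, ← map_inv₀]
    exact m59ei_isBdd_twist (ζA ^ b) h2i
  -- the product as an element of the bounded subring
  set P : ↥(gq_bddSubring ↥A Qb) :=
    ⟨qExpand Qb q Z, hb0⟩ * ∏ b ∈ Finset.range q,
      (⟨fs_twist (ζ ^ b) (C * Wz), hbt b⟩ : ↥(gq_bddSubring ↥A Qb)) with hP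
  have hPcoe : (P : LaurentSeries Qb) = qExpand Qb q (C ^ q * Nz) := by
    rw [hprod', hP]
    show qExpand Qb q Z * ((∏ b ∈ Finset.range q,
      (⟨fs_twist (ζ ^ b) (C * Wz), hbt b⟩ : ↥(gq_bddSubring ↥A Qb)) :
        ↥(gq_bddSubring ↥A Qb)) : LaurentSeries Qb) = _
    rw [SubmonoidClass.coe_finsetProd]
  have hPinv : gq_IsBdd ↥A Qb ((P : LaurentSeries Qb))⁻¹ := by
    rw [hPcoe, hprod', mul_inv, ← Finset.prod_inv_distrib]
    refine (gq_bddSubring ↥A Qb).mul_mem ?_ ((gq_bddSubring ↥A Qb).prod_mem fun b _ => hbti b)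
    rw [← map_inv₀]
    exact m59ei_isBdd_qExpand q h1i
  -- the residue of the product
  have hζbar : Units.map (residue ↥A : ↥A →* kA) ζA = 1 := by
    apply Units.ext
    refine m59nr_root_eq_one q ?_
    rw [← Units.val_pow_eq_pow_val, ← map_pow, hζApow, map_one, Units.val_one]
  have hresP : gq_res ↥A Qb P = qExpand kA q
      (gq_res ↥A Qb ⟨Z, h1⟩ * coeffMap τ (gq_res ↥A Qb ⟨C * Wz, h2⟩)) := by
    rw [hP, map_mul, map_prod]
    have e1 : gq_res ↥A Qb ⟨qExpand Qb q Z, hb0⟩ = qExpand kA q (gq_res ↥A Qb ⟨Z, h1⟩) :=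
      m59ei_res_qExpand q (⟨Z, h1⟩ : ↥(gq_bddSubring ↥A Qb))
    have e2 : ∀ b ∈ Finset.range q,
        gq_res ↥A Qb (⟨fs_twist (ζ ^ b) (C * Wz), hbt b⟩ : ↥(gq_bddSubring ↥A Qb)) =
          gq_res ↥A Qb ⟨C * Wz, h2⟩ := by
      intro b _
      have h3 := m59nr_res_twist (O := ↥A) (K := Qb) (ζA ^ b)
        (⟨C * Wz, h2⟩ : ↥(gq_bddSubring ↥A Qb))
      rw [show Units.map (residue ↥A : ↥A →* kA) (ζA ^ b) = 1 from by
        rw [map_pow, hζbar, one_pow], fs_twist_one] at h3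
      rw [← h3]
      exact m59nr_res_congr (by rw [hζb b]) _ _
    rw [e1, Finset.prod_congr rfl e2, Finset.prod_const, Finset.card_range, map_mul]
    congr 1
    have hτF : τ = frobenius kA q := RingHom.ext fun x => by rw [hτ, frobenius_def]
    rw [hτF]
    exact ca_pow_eq_qExpand_frobenius kA q _
  -- `Y = C ^ q * Nz` is a Gauss unit
  set y0 : Fbar M := algebraMap Qb (Fbar M) (c₂ ^ q) * s35pe_normAlong (heckeAlphaBar Qb M q) z
    with hy0
  set Y : LaurentSeries Qb := C ^ q * Nz with hY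
  have hqY : qExpand Qb q Y = (P : LaurentSeries Qb) := hPcoe.symm
  have hC0 : C ≠ 0 := by
    rw [hC]
    intro h0
    exact hc₂ (HahnSeries.C_injective (by rw [h0, map_zero]))
  have hNz0 : Nz ≠ 0 := by
    intro h0
    exact s44dqn_normAlong_ne_zero M q hz0 (Subtype.ext h0)
  have hY0 : Y ≠ 0 := mul_ne_zero (pow_ne_zero q hC0) hNz0
  have hGU : gq_IsBdd ↥A Qb Y ∧ gq_IsBdd ↥A Qb Y⁻¹ := by
    rcases (s44pg_W A hA hq.out.ne_zero M).mem_or_inv_mem y0 with hb | hb
    · have hbY : gq_IsBdd ↥A Qb Y := by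
        rw [← eY]
        exact hb
      refine ⟨hbY, (m59ei_isBdd_inv_qExpand_iff q hbY hY0).1 ?_⟩
      rw [hqY]
      exact hPinv
    · have hbYi : gq_IsBdd ↥A Qb Y⁻¹ := by
        have : gq_IsBdd ↥A Qb ((y0⁻¹ : Fbar M) : LaurentSeries Qb) := hb
        rw [IntermediateField.coe_inv, eY] at this
        exact this
      have h3 := (m59ei_isBdd_inv_qExpand_iff q hbYi (inv_ne_zero hY0)).1 (by
        rw [map_inv₀, inv_inv, hqY]
        exact P.2)
      rw [inv_inv] at h3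
      exact ⟨h3, hbYi⟩
  obtain ⟨hbY, hbYi⟩ := hGU
  have hresY : gq_res ↥A Qb ⟨Y, hbY⟩ =
      gq_res ↥A Qb ⟨Z, h1⟩ * coeffMap τ (gq_res ↥A Qb ⟨C * Wz, h2⟩) := by
    apply qExpand_injective (R := kA) q
    rw [← hresP, ← m59ei_res_qExpand q (⟨Y, hbY⟩ : ↥(gq_bddSubring ↥A Qb))]
    exact m59nr_res_congr hqY _ P.2
  have hN : gq_IsBdd ↥A Qb (((algebraMap Qb (Fbar M) (c₂ ^ q) *
      s35pe_normAlong (heckeAlphaBar Qb M q) z : Fbar M) : LaurentSeries Qb)) := by
    rw [eY]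
    exact hbY
  refine ⟨hN, ?_, ?_⟩
  · rw [eY]
    exact hbYi
  · rw [m59nr_res_congr eY hN hbY, hresY, m59nr_res_congr eG h2o h2]

end Gen

end Fermat.Agent.M59
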