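/-
M59 / Sink B, leaf 4 [TOR-SURJ], cell [NORM-RED] (helper20), part 3.  Prefix `m59nr_`.

THE TWO NORM-REDUCTION IDENTITIES FOR THE REDUCTIONS `f̄_u`, `f̄_{W u}` OF A CLASS KILLED BY BOTH
PUSH-FORWARDS, IN THE HYPOTHESIS SHAPE OF `s35b_abel_res`.

`A` over `q`, `q ∤ M`, `m > 0` ANY exponent, `u ∈ J₀(M q)[m]` with `(α_q)_* u = 0 = (β_q)_* u`,
`fb`, `gb` ANY reductions of representing functions of `u` and of `W_q u` (`twfr_Fbar`), `σ = ca_aut kA M φ`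
the coefficientwise `q`-Frobenius of `FF_A(M)`:

  **`m59nr_fun`** : `fb · σ(gb) = c • h ^ m`   and   `σ(fb) · gb = c' • h' ^ m`   (`c c' ∈ kAˣ`, `h h' ≠ 0`).

No hypothesis on `ν` or `δ`, no parity, no `4 ∣ M`: `m59nr_gen` normalises `f` and `W̄ f` INDEPENDENTLY.

* `m59nr_half` : one identity, for a representative `f` of `u` with `(α_q)_* u = 0`, `f` and `c₂ W̄ f`
  Gauss units with reductions `x₁`, `x₂`:  `x₁ · σ(x₂) = c • h ^ m`.
-/
import Mathlib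
import Fermat.Agent.M59.SinkB.NormRed.Gen
import Fermat.Agent.TW.Easy.Res.Defs
import Fermat.Agent.TW.Easy.WTwo

set_option autoImplicit false
set_option linter.unusedSectionVars false
set_option linter.unusedVariables false
set_option linter.style.haveILetI false
set_option synthInstance.maxHeartbeats 400000
set_option maxHeartbeats 1600000

noncomputable section

namespace Fermat.Agent.M59

open ModularCurve AlgebraicCurve IntermediateField IsLocalRing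
open Fermat.Agent.JT3 Fermat.Agent.SS Fermat.Agent.S28 Fermat.Agent.S35 Fermat.Agent.S44
  Fermat.Agent.DS Fermat.Agent.S24 Fermat.Agent.TW

local notation "Qb" => AlgebraicClosure ℚ

theorem m59nr_alg {k F : Type*} [Field k] [Field F] [Algebra k F] (a b s h : F) (c : k) (m : ℕ)
    (e : a * b = c • h ^ m) : a * (s ^ m * b) = c • (h * s) ^ m := by
  rw [mul_pow, ← smul_mul_assoc, ← e]
  ring

section Main

variable (A : ValuationSubring Qb) {q : ℕ} [hq : Fact q.Prime] (hA : A.LiesOverPrime q)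
  (M : ℕ) [NeZero M] [NeZero q] [NeZero (M * q)] (hqM : ¬ q ∣ M)

local notation "kA" => IsLocalRing.ResidueField A

include hA hqM in
/-- the reduction of a Gauss-bounded element of `F̄_M` lies in `FF_A(M)`. -/
theorem m59nr_res_mem (y : Fbar M) (h : gq_IsBdd ↥A Qb (y : LaurentSeries Qb)) :
    gq_res ↥A Qb ⟨(y : LaurentSeries Qb), h⟩ ∈ lg_F kA M := by
  have e : ((heckeAlphaBar Qb M q y : Fbar (M * q)) : LaurentSeries Qb) = (y : LaurentSeries Qb) :=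
    coe_heckeAlphaBar M q y
  have h' : gq_IsBdd ↥A Qb ((heckeAlphaBar Qb M q y : Fbar (M * q)) : LaurentSeries Qb) := by
    rw [e]; exact h
  have := s44rd_hmem A hA M hqM (heckeAlphaBar Qb M q y) h'
  rwa [m59nr_res_congr e h' h] at this

include hA in
/-- **one norm-reduction identity.** -/
theorem m59nr_half (φ : kA ≃+* kA) (hφ : ∀ c : kA, φ c = c ^ q) {m : ℕ} (hm : 0 < m)
    {u : JZero (M * q)} (h1 : s35p_P1J M q u = 0)
    {f : Fbar (M * q)} (hf : s44f_Rep (M * q) m u f)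
    {c₂ : Qb} (hc₂ : c₂ ≠ 0) {x₁ x₂ : s44e_FF A M} (hx₁ : x₁ ≠ 0) (hx₂ : x₂ ≠ 0)
    (hr₁ : s44e_RedOf A M f x₁)
    (hr₂ : s44e_RedOf A M
      (algebraMap Qb (Fbar (M * q)) c₂ * ssm_al_Wbar M q hq.out hqM f) x₂) :
    ∃ (c : kA) (h : s44e_FF A M), c ≠ 0 ∧ h ≠ 0 ∧
      x₁ * (ca_aut kA M φ • x₂) = c • h ^ m := by
  classical
  have hq0 : q ≠ 0 := hq.out.ne_zero
  have hf0 : f ≠ 0 := hf.1
  -- the norm relation
  obtain ⟨c0, h0, hh0, hnorm⟩ : ∃ (c0 : Qb) (h0 : Fbar M), h0 ≠ 0 ∧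
      s35pe_normAlong (heckeAlphaBar Qb M q) f = algebraMap Qb (Fbar M) c0 * h0 ^ m := by
    obtain ⟨-, D, rfl, hD⟩ := hf
    exact s35k_push_kummer (rt_isSepGen_jBar M) _ _ _ _ D hf0 hD h1
  have hNf0 : s35pe_normAlong (heckeAlphaBar Qb M q) f ≠ 0 := s44dqn_normAlong_ne_zero M q hf0
  have hc0 : c0 ≠ 0 := by
    rintro rfl
    rw [map_zero, zero_mul] at hnorm
    exact hNf0 hnorm
  -- Gauss units
  obtain ⟨hb1, e1⟩ := hr₁
  obtain ⟨hb2, e2⟩ := hr₂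
  have hx₁' : (x₁ : LaurentSeries kA) ≠ 0 := fun h => hx₁ (Subtype.ext h)
  have hx₂' : (x₂ : LaurentSeries kA) ≠ 0 := fun h => hx₂ (Subtype.ext h)
  have hb1i : gq_IsBdd ↥A Qb ((f : LaurentSeries Qb))⁻¹ :=
    gq_isBdd_inv_of_res_ne_zero (⟨_, hb1⟩ : ↥(gq_bddSubring ↥A Qb)) (by rw [e1]; exact hx₁')
  have hb2i := gq_isBdd_inv_of_res_ne_zero (⟨_, hb2⟩ : ↥(gq_bddSubring ↥A Qb))
    (by rw [e2]; exact hx₂')
  obtain ⟨hN, hNi, hres⟩ := m59nr_gen A hA M hqM (φ : kA →+* kA) hφ f hf0 c₂ hc₂ hb1 hb1i hb2 hb2i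
  rw [e1, e2] at hres
  -- normalise `h0`
  obtain ⟨c3, hc3, hH1, hH2⟩ := s44pg_nrm A hA hq0 M hh0
  set H : Fbar M := algebraMap Qb (Fbar M) c3 * h0 with hH
  have hH0 : H ≠ 0 := mul_ne_zero ((_root_.map_ne_zero _).2 hc3) hh0
  have hbH : gq_IsBdd ↥A Qb (H : LaurentSeries Qb) := hH1
  have hbHi : gq_IsBdd ↥A Qb ((H : LaurentSeries Qb))⁻¹ := by
    have : gq_IsBdd ↥A Qb ((H⁻¹ : Fbar M) : LaurentSeries Qb) := hH2
    rwa [IntermediateField.coe_inv] at this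
  have hH0' : (H : LaurentSeries Qb) ≠ 0 := fun h => hH0 (Subtype.ext h)
  have hresH : gq_res ↥A Qb ⟨(H : LaurentSeries Qb), hbH⟩ ≠ 0 :=
    gq_res_ne_zero_of_inv (⟨_, hbH⟩ : ↥(gq_bddSubring ↥A Qb)) hbHi hH0'
  -- the constant
  set c4 : Qb := c₂ ^ q * c0 * (c3 ^ m)⁻¹ with hc4
  have hc40 : c4 ≠ 0 :=
    mul_ne_zero (mul_ne_zero (pow_ne_zero q hc₂) hc0) (inv_ne_zero (pow_ne_zero m hc3))
  have hid : algebraMap Qb (Fbar M) (c₂ ^ q) * s35pe_normAlong (heckeAlphaBar Qb M q) f =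
      algebraMap Qb (Fbar M) c4 * H ^ m := by
    have e : c₂ ^ q * c0 = c4 * c3 ^ m := by
      rw [hc4, mul_assoc, inv_mul_cancel₀ (pow_ne_zero m hc3), mul_one]
    rw [hnorm, hH, mul_pow, ← map_pow, ← mul_assoc, ← mul_assoc, ← map_mul, ← map_mul, e]
  set Y : LaurentSeries Qb := ((algebraMap Qb (Fbar M) (c₂ ^ q) *
    s35pe_normAlong (heckeAlphaBar Qb M q) f : Fbar M) : LaurentSeries Qb) with hY
  set C4 : LaurentSeries Qb := algebraMap Qb (LaurentSeries Qb) c4 with hC4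
  have hYeq : Y = C4 * (H : LaurentSeries Qb) ^ m := by
    rw [hY, hid]
    rfl
  have hHm0 : (H : LaurentSeries Qb) ^ m ≠ 0 := pow_ne_zero m hH0'
  have hC4b : gq_IsBdd ↥A Qb C4 := by
    have e : C4 = Y * ((H : LaurentSeries Qb)⁻¹) ^ m := by
      rw [hYeq, inv_pow, mul_assoc, mul_inv_cancel₀ hHm0, mul_one]
    rw [e]
    exact (gq_bddSubring ↥A Qb).mul_mem hN ((gq_bddSubring ↥A Qb).pow_mem hbHi m)
  have hC4bi : gq_IsBdd ↥A Qb (algebraMap Qb (LaurentSeries Qb) c4⁻¹) := by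
    have e : algebraMap Qb (LaurentSeries Qb) c4⁻¹ = Y⁻¹ * (H : LaurentSeries Qb) ^ m := by
      rw [map_inv₀]
      show C4⁻¹ = _
      rw [hYeq, mul_inv C4 _, mul_assoc, inv_mul_cancel₀ hHm0, mul_one]
    rw [e]
    exact (gq_bddSubring ↥A Qb).mul_mem hNi ((gq_bddSubring ↥A Qb).pow_mem hbH m)
  have hc4A : c4 ∈ A := (s44pg_isBdd_const A c4).1 hC4b
  have hc4iA : c4⁻¹ ∈ A := (s44pg_isBdd_const A c4⁻¹).1 hC4bi
  have hunit : IsUnit (⟨c4, hc4A⟩ : ↥A) :=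
    isUnit_iff_exists_inv.2 ⟨⟨c4⁻¹, hc4iA⟩, Subtype.ext (mul_inv_cancel₀ hc40)⟩
  have hcbar : residue ↥A ⟨c4, hc4A⟩ ≠ 0 := (residue_ne_zero_iff_isUnit _).2 hunit
  -- the residue of `Y`
  have hresY : gq_res ↥A Qb ⟨Y, hN⟩ =
      algebraMap kA (LaurentSeries kA) (residue ↥A ⟨c4, hc4A⟩) *
        gq_res ↥A Qb ⟨(H : LaurentSeries Qb), hbH⟩ ^ m := by
    have hmul : (⟨Y, hN⟩ : ↥(gq_bddSubring ↥A Qb)) =
        ⟨C4, hC4b⟩ * (⟨(H : LaurentSeries Qb), hbH⟩ : ↥(gq_bddSubring ↥A Qb)) ^ m :=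
      Subtype.ext hYeq
    rw [hmul, map_mul, map_pow]
    congr 1
    exact m59nr_res_const (O := ↥A) (K := Qb) ⟨c4, hc4A⟩
  refine ⟨residue ↥A ⟨c4, hc4A⟩,
    ⟨gq_res ↥A Qb ⟨(H : LaurentSeries Qb), hbH⟩, m59nr_res_mem A hA M hqM H hbH⟩, hcbar, ?_, ?_⟩
  · intro h
    exact hresH (congrArg Subtype.val h)
  · apply Subtype.ext
    have eL : ((x₁ * (ca_aut kA M φ • x₂) : s44e_FF A M) : LaurentSeries kA) =
        (x₁ : LaurentSeries kA) * coeffMap (φ : kA →+* kA) (x₂ : LaurentSeries kA) := rfl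
    have eR : ((residue ↥A ⟨c4, hc4A⟩ •
        (⟨gq_res ↥A Qb ⟨(H : LaurentSeries Qb), hbH⟩, m59nr_res_mem A hA M hqM H hbH⟩ :
          s44e_FF A M) ^ m : s44e_FF A M) : LaurentSeries kA) =
        algebraMap kA (LaurentSeries kA) (residue ↥A ⟨c4, hc4A⟩) *
          gq_res ↥A Qb ⟨(H : LaurentSeries Qb), hbH⟩ ^ m := by
      rw [Algebra.smul_def]
      rfl
    rw [eL, eR, ← hres, hresY]

include hA in
/-- **[NORM-RED], function form** (the hypothesis shape of `s35b_abel_res`): for `u ∈ J₀(M q)[m]`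
killed by both push-forwards to level `M`, and ANY reductions `fb`, `gb` of representing functions of
`u` and of `W_q u`:  `fb · σ(gb) = c • h ^ m`  and  `σ(fb) · gb = c' • h' ^ m`. -/
theorem m59nr_fun (φ : kA ≃+* kA) (hφ : ∀ c : kA, φ c = c ^ q) {m : ℕ} (hm : 0 < m)
    {u : JZero (M * q)} (hu : m • u = 0)
    (h1 : s35p_P1J M q u = 0) (h2 : s35p_P2J M q u = 0)
    {fb gb : s44e_FF A M} (hfb : twfr_Fbar A M q m u fb)
    (hgb : twfr_Fbar A M q m (s44w_WJ M q hq.out hqM u) gb) :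
    (∃ (c : kA) (h : s44e_FF A M), c ≠ 0 ∧ h ≠ 0 ∧
      fb * (ca_aut kA M φ • gb) = c • h ^ m) ∧
    ∃ (c' : kA) (h' : s44e_FF A M), c' ≠ 0 ∧ h' ≠ 0 ∧
      (ca_aut kA M φ • fb) * gb = c' • h' ^ m := by
  classical
  have hq0 : q ≠ 0 := hq.out.ne_zero
  have hmem := s44rd_hmem A hA M hqM
  obtain ⟨hfb0, f, hfrep, hfred⟩ := hfb
  have hf0 : f ≠ 0 := hfrep.1
  have hWf0 : ssm_al_Wbar M q hq.out hqM f ≠ 0 := (_root_.map_ne_zero _).2 hf0
  obtain ⟨c₂, hc₂, hW1, hW2⟩ := s44pg_nrm A hA hq0 (M * q) hWf0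
  have hG0 : algebraMap Qb (Fbar (M * q)) c₂ * ssm_al_Wbar M q hq.out hqM f ≠ 0 :=
    mul_ne_zero ((_root_.map_ne_zero _).2 hc₂) hWf0
  obtain ⟨x₂, hx₂, hr₂⟩ := s44e_exists_redOf_of_unit A hq.out hA M hmem hW1 hW2 hG0
  have hrepW : s44f_Rep (M * q) m (s44w_WJ M q hq.out hqM u)
      (algebraMap Qb (Fbar (M * q)) c₂ * ssm_al_Wbar M q hq.out hqM f) := by
    have := (s44b_rep_pth (M * q) (p := m) (z := s44w_WJ M q hq.out hqM u)
      (f := ssm_al_Wbar M q hq.out hqM f) (c := c₂)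
      (h := (1 : modularFunctionFieldBar (M * q))) hc₂ one_ne_zero).2
      (twf_w_rep_WJ M q hq.out hqM m hfrep)
    rwa [one_pow, mul_one] at this
  have hx₂F : twfr_Fbar A M q m (s44w_WJ M q hq.out hqM u) x₂ := ⟨hx₂, _, hrepW, hr₂⟩
  obtain ⟨g, hg0, hgeq⟩ := twfr_fbar_unique A hq.out hA M hm hmem hx₂F hgb
  constructor
  · obtain ⟨c, h, hc, hh, e⟩ :=
      m59nr_half A hA M hqM φ hφ hm h1 hfrep hc₂ hfb0 hx₂ hfred hr₂
    refine ⟨c, h * (ca_aut kA M φ • g), hc,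
      mul_ne_zero hh ((smul_eq_zero_iff_eq (ca_aut kA M φ)).not.2 hg0), ?_⟩
    rw [hgeq, smul_mul', smul_pow']
    exact m59nr_alg fb (ca_aut kA M φ • x₂) (ca_aut kA M φ • g) h c m e
  · have h1W : s35p_P1J M q (s44w_WJ M q hq.out hqM u) = 0 := by
      rw [twf_w_as_WJ M q hq.out hqM m hm.ne' u hu]
      exact h2
    have hr₁' : s44e_RedOf A M (algebraMap Qb (Fbar (M * q)) c₂⁻¹ *
        ssm_al_Wbar M q hq.out hqM
          (algebraMap Qb (Fbar (M * q)) c₂ * ssm_al_Wbar M q hq.out hqM f)) fb := by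
      have e : algebraMap Qb (Fbar (M * q)) c₂⁻¹ *
          ssm_al_Wbar M q hq.out hqM
            (algebraMap Qb (Fbar (M * q)) c₂ * ssm_al_Wbar M q hq.out hqM f) = f := by
        rw [map_mul, AlgHom.commutes, s44dqn_Wbar_Wbar, ← mul_assoc, ← map_mul,
          inv_mul_cancel₀ hc₂, map_one, one_mul]
      rw [e]
      exact hfred
    obtain ⟨c, h, hc, hh, e⟩ :=
      m59nr_half A hA M hqM φ hφ hm h1W hrepW (inv_ne_zero hc₂) hx₂ hfb0 hr₂ hr₁'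
    refine ⟨c, h * g, hc, mul_ne_zero hh hg0, ?_⟩
    rw [hgeq]
    exact m59nr_alg (ca_aut kA M φ • fb) x₂ g h c m (by rw [mul_comm]; exact e)

end Main

end Fermat.Agent.M59
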